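/-
P-MW / block E2 (helper58): strong approximation in a function field of one variable, from the
vanishing of `H¹` (Riemann's theorem, adelic form).
-/
import Fermat.Agent.H58.RR.NonSpecial

set_option autoImplicit false

noncomputable section

open AlgebraicCurve WithZero

namespace Fermat.Agent.H58

variable {K F : Type*} [Field K] [Field F] [Algebra K F]

/-- The repartition with prescribed components on a finite set of places and `0` elsewhere. -/
def rrFin (S : Finset (Place K F)) (x : Place K F → F) : ↥(repartitions K F) :=
  ⟨fun w => by classical exact if w ∈ S then x w else 0,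
    mem_repartitions_of_finite_ord (by
      classical
      refine S.finite_toSet.subset fun w hw => ?_
      rw [Set.mem_ofPred_eq] at hw
      rw [Finset.mem_coe]
      by_contra hne
      rw [if_neg hne] at hw
      simp at hw)⟩

theorem rrFin_apply_mem (S : Finset (Place K F)) (x : Place K F → F) {w : Place K F}
    (h : w ∈ S) : ((rrFin S x : ↥(repartitions K F)) : Place K F → F) w = x w := by
  classical
  show (if w ∈ S then x w else 0) = x w
  rw [if_pos h]

theorem rrFin_apply_notMem (S : Finset (Place K F)) (x : Place K F → F) {w : Place K F}
    (h : w ∉ S) : ((rrFin S x : ↥(repartitions K F)) : Place K F → F) w = 0 := by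
  classical
  show (if w ∈ S then x w else 0) = 0
  rw [if_neg h]

/-- **Strong approximation** (valuation form): if `H¹(D) = 0`, then for every finite set `S` of
places and targets `x v` there is `a ∈ F` with `|a - x v|_v ≤ exp (D v)` for `v ∈ S` and
`|a|_v ≤ exp (D v)` for `v ∉ S`. -/
theorem RRHyp.strong_approx (h : RRHyp K F) (D : Divisor K F)
    (hD : Module.finrank K (H1 D) = 0) (S : Finset (Place K F)) (x : Place K F → F) :
    ∃ a : F, (∀ v ∈ S, v.adicValuation (a - x v) ≤ exp (D v)) ∧
      ∀ v ∉ S, v.adicValuation a ≤ exp (D v) := by
  have htop := h.top_of_finrank_H1_eq_zero hD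
  have hmem : rrFin S x ∈ repartitionsOf D ⊔ principalRepartitions K F := by
    rw [htop]; exact Submodule.mem_top
  obtain ⟨β, hβ, γ, hγ, hsum⟩ := Submodule.mem_sup.mp hmem
  obtain ⟨f, rfl⟩ := rr_mem_principal_iff.mp hγ
  have hval : ∀ v, (β : Place K F → F) v + f = ((rrFin S x : ↥(repartitions K F)) :
      Place K F → F) v := by
    intro v
    have := congrArg (fun α : ↥(repartitions K F) => (α : Place K F → F) v) hsum
    simpa using this
  refine ⟨f, fun v hv => ?_, fun v hv => ?_⟩
  · have h1 := hval v
    rw [rrFin_apply_mem S x hv] at h1
    have h2 : f - x v = -((β : Place K F → F) v) := by rw [← h1]; ring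
    rw [h2, Valuation.map_neg]
    exact hβ v
  · have h1 := hval v
    rw [rrFin_apply_notMem S x hv] at h1
    have h2 : f = -((β : Place K F → F) v) := by
      have := eq_neg_of_add_eq_zero_right h1
      exact this
    rw [h2, Valuation.map_neg]
    exact hβ v

end Fermat.Agent.H58

end
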