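/-
P-MW / block E2 (helper58): the ideal-divisor dictionary for the holomorphy ring outside one
place `vi` of a function field of one variable with Riemann's theorem (`RRHyp`).

An "ideal" is here a `K`-subspace `J` of `F` contained in the holomorphy ring
`O = {f | ∀ v ≠ vi, |f|_v ≤ 1}`, stable under multiplication by `O`, and nonzero
(`IsHoloIdeal vi J`).  Its divisor `mweDiv vi J` is `v ↦ min_{f ∈ J} ord_v f` (`0` at `vi`).
Main result `mwe_mem_iff`: `f ∈ J ↔ ∀ v ≠ vi, |f|_v ≤ exp (-(mweDiv vi J v))`.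
-/
import Fermat.Agent.H58.MWE.Approx

set_option autoImplicit false

noncomputable section

open AlgebraicCurve WithZero

namespace Fermat.Agent.H58

variable {K F : Type*} [Field K] [Field F] [Algebra K F]

/-- `f` is regular outside `vi`. -/
def IsHolo (vi : Place K F) (f : F) : Prop :=
  ∀ v : Place K F, v ≠ vi → v.adicValuation f ≤ 1

theorem IsHolo.mul {vi : Place K F} {f g : F} (hf : IsHolo vi f) (hg : IsHolo vi g) :
    IsHolo vi (f * g) := fun v hv => by
  rw [map_mul]; exact mul_le_one' (hf v hv) (hg v hv)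

theorem IsHolo.add {vi : Place K F} {f g : F} (hf : IsHolo vi f) (hg : IsHolo vi g) :
    IsHolo vi (f + g) := fun v hv =>
  (Valuation.map_add _ _ _).trans (max_le (hf v hv) (hg v hv))

theorem isHolo_algebraMap (vi : Place K F) (c : K) : IsHolo vi (algebraMap K F c) :=
  fun v _ => v.adicValuation_algebraMap_le_one c

theorem isHolo_zero (vi : Place K F) : IsHolo vi (0 : F) := fun v _ => by simp

theorem isHolo_one (vi : Place K F) : IsHolo vi (1 : F) := fun v _ => by simp

/-- An ideal of the holomorphy ring outside `vi`, as a subspace of `F`. -/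
structure IsHoloIdeal (vi : Place K F) (J : Submodule K F) : Prop where
  holo : ∀ f ∈ J, IsHolo vi f
  mul_mem : ∀ a f : F, IsHolo vi a → f ∈ J → a * f ∈ J
  ne_bot : J ≠ ⊥

/-- The minimal order at `v` of a nonzero element of `J`. -/
def mweOrd (J : Submodule K F) (v : Place K F) : ℕ :=
  sInf {k : ℕ | ∃ f ∈ J, f ≠ 0 ∧ v.ord f = (k : ℤ)}

/-- The divisor of `J` as a function. -/
def mweFun (vi : Place K F) (J : Submodule K F) (v : Place K F) : ℤ := by
  classical exact if v = vi then 0 else (mweOrd J v : ℤ)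

/-- The divisor of `J`. -/
def mweDiv (vi : Place K F) (J : Submodule K F) : Divisor K F := by
  classical exact
    if h : (Function.support (mweFun vi J)).Finite then Finsupp.ofSupportFinite _ h else 0

theorem mweFun_self (vi : Place K F) (J : Submodule K F) : mweFun vi J vi = 0 := by
  classical
  unfold mweFun
  rw [if_pos rfl]

theorem mweFun_of_ne (vi : Place K F) (J : Submodule K F) {v : Place K F} (hv : v ≠ vi) :
    mweFun vi J v = (mweOrd J v : ℤ) := by
  classical
  unfold mweFun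
  rw [if_neg hv]

theorem mweFun_nonneg (vi : Place K F) (J : Submodule K F) (v : Place K F) :
    0 ≤ mweFun vi J v := by
  by_cases hv : v = vi
  · rw [hv, mweFun_self]
  · rw [mweFun_of_ne vi J hv]; exact Int.natCast_nonneg _

theorem IsHoloIdeal.ord_nonneg {vi : Place K F} {J : Submodule K F} (hJ : IsHoloIdeal vi J)
    {f : F} (hf : f ∈ J) {v : Place K F} (hv : v ≠ vi) : 0 ≤ v.ord f := by
  rcases (v.adicValuation_le_one_iff).mp (hJ.holo f hf v hv) with h | h
  · rw [h]; simp
  · exact h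

theorem IsHoloIdeal.exists_ne_zero {vi : Place K F} {J : Submodule K F}
    (hJ : IsHoloIdeal vi J) : ∃ f ∈ J, f ≠ 0 :=
  (Submodule.ne_bot_iff J).mp hJ.ne_bot

theorem IsHoloIdeal.ordSet_nonempty {vi : Place K F} {J : Submodule K F}
    (hJ : IsHoloIdeal vi J) {v : Place K F} (hv : v ≠ vi) :
    {k : ℕ | ∃ f ∈ J, f ≠ 0 ∧ v.ord f = (k : ℤ)}.Nonempty := by
  obtain ⟨f, hf, hf0⟩ := hJ.exists_ne_zero
  refine ⟨(v.ord f).toNat, f, hf, hf0, ?_⟩
  rw [Int.toNat_of_nonneg (hJ.ord_nonneg hf hv)]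

/-- The minimum is attained. -/
theorem IsHoloIdeal.exists_ord_eq {vi : Place K F} {J : Submodule K F}
    (hJ : IsHoloIdeal vi J) {v : Place K F} (hv : v ≠ vi) :
    ∃ g ∈ J, g ≠ 0 ∧ v.ord g = (mweOrd J v : ℤ) :=
  Nat.sInf_mem (hJ.ordSet_nonempty hv)

theorem IsHoloIdeal.mweOrd_le {vi : Place K F} {J : Submodule K F}
    (hJ : IsHoloIdeal vi J) {v : Place K F} (hv : v ≠ vi) {f : F} (hf : f ∈ J) (hf0 : f ≠ 0) :
    (mweOrd J v : ℤ) ≤ v.ord f := by
  have h0 := hJ.ord_nonneg hf hv
  have : mweOrd J v ≤ (v.ord f).toNat :=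
    Nat.sInf_le ⟨f, hf, hf0, (Int.toNat_of_nonneg h0).symm⟩
  omega

theorem IsHoloIdeal.support_finite [HasPrincipalDivisors K F] {vi : Place K F}
    {J : Submodule K F} (hJ : IsHoloIdeal vi J) : (Function.support (mweFun vi J)).Finite := by
  obtain ⟨f, hf, hf0⟩ := hJ.exists_ne_zero
  obtain ⟨E, hE, -⟩ := HasPrincipalDivisors.exists_divisor (K := K) f hf0
  refine E.support.finite_toSet.subset fun v hv => ?_
  rw [Function.mem_support] at hv
  rw [Finset.mem_coe, Finsupp.mem_support_iff, hE v]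
  by_cases hvv : v = vi
  · exact absurd (by rw [hvv, mweFun_self]) hv
  · rw [mweFun_of_ne vi J hvv] at hv
    have h1 := hJ.mweOrd_le hvv hf hf0
    have h2 : (0 : ℤ) ≤ (mweOrd J v : ℤ) := Int.natCast_nonneg _
    omega

theorem IsHoloIdeal.mweDiv_apply [HasPrincipalDivisors K F] {vi : Place K F}
    {J : Submodule K F} (hJ : IsHoloIdeal vi J) (v : Place K F) :
    mweDiv vi J v = mweFun vi J v := by
  classical
  unfold mweDiv
  rw [dif_pos hJ.support_finite]
  rfl

theorem IsHoloIdeal.mweDiv_self [HasPrincipalDivisors K F] {vi : Place K F}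
    {J : Submodule K F} (hJ : IsHoloIdeal vi J) : mweDiv vi J vi = 0 := by
  rw [hJ.mweDiv_apply, mweFun_self]

theorem IsHoloIdeal.mweDiv_of_ne [HasPrincipalDivisors K F] {vi : Place K F}
    {J : Submodule K F} (hJ : IsHoloIdeal vi J) {v : Place K F} (hv : v ≠ vi) :
    mweDiv vi J v = (mweOrd J v : ℤ) := by
  rw [hJ.mweDiv_apply, mweFun_of_ne vi J hv]

theorem IsHoloIdeal.mweDiv_nonneg [HasPrincipalDivisors K F] {vi : Place K F}
    {J : Submodule K F} (hJ : IsHoloIdeal vi J) : 0 ≤ mweDiv vi J := by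
  rw [Finsupp.le_def]
  intro v
  rw [hJ.mweDiv_apply]
  exact mweFun_nonneg vi J v

/-- Elements of `J` satisfy the local conditions. -/
theorem IsHoloIdeal.val_le [HasPrincipalDivisors K F] {vi : Place K F}
    {J : Submodule K F} (hJ : IsHoloIdeal vi J) {f : F} (hf : f ∈ J) {v : Place K F}
    (hv : v ≠ vi) : v.adicValuation f ≤ exp (-(mweDiv vi J v)) := by
  rw [v.adicValuation_le_exp_iff, neg_neg, hJ.mweDiv_of_ne hv]
  rcases eq_or_ne f 0 with h0 | h0
  · exact Or.inl h0
  · exact Or.inr (hJ.mweOrd_le hv hf h0)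

/-- The minimum is attained (valuation form). -/
theorem IsHoloIdeal.exists_val_eq [HasPrincipalDivisors K F] {vi : Place K F}
    {J : Submodule K F} (hJ : IsHoloIdeal vi J) {v : Place K F} (hv : v ≠ vi) :
    ∃ g ∈ J, g ≠ 0 ∧ v.adicValuation g = exp (-(mweDiv vi J v)) := by
  obtain ⟨g, hg, hg0, hord⟩ := hJ.exists_ord_eq hv
  refine ⟨g, hg, hg0, ?_⟩
  rw [v.adicValuation_eq_exp_neg_ord hg0, hord, hJ.mweDiv_of_ne hv]

end Fermat.Agent.H58

end
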