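/-
P-MW / block E2 (helper58): the ideal-divisor dictionary, main theorem: an ideal of the
holomorphy ring outside `vi` is cut out by its local conditions.
-/
import Fermat.Agent.H58.MWE.IdealDiv

set_option autoImplicit false
set_option linter.style.haveILetI false

noncomputable section

open AlgebraicCurve WithZero

namespace Fermat.Agent.H58

variable {K F : Type*} [Field K] [Field F] [Algebra K F]

theorem mwe_mul_le_exp {x y : ℤᵐ⁰} {p q r : ℤ} (hx : x ≤ exp p) (hy : y ≤ exp q)
    (hpq : p + q = r) : x * y ≤ exp r := by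
  rw [← hpq, exp_add]
  exact mul_le_mul' hx hy

theorem mwe_exp_le_one {p : ℤ} (hp : p ≤ 0) : (exp p : ℤᵐ⁰) ≤ 1 := by
  rw [← exp_zero, exp_le_exp]
  exact hp

/-- **Ideals are cut out by local conditions.** -/
theorem IsHoloIdeal.mem_of_val_le (h : RRHyp K F) {vi : Place K F} {J : Submodule K F}
    (hJ : IsHoloIdeal vi J) {f : F}
    (hf : ∀ v : Place K F, v ≠ vi → v.adicValuation f ≤ exp (-(mweDiv vi J v))) : f ∈ J := by
  classical
  haveI := h.principal
  obtain ⟨f₀, hf₀, hf₀0⟩ := hJ.exists_ne_zero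
  obtain ⟨E, hE, hEdeg⟩ := HasPrincipalDivisors.exists_divisor (K := K) f₀ hf₀0
  obtain ⟨c, hc⟩ := h.exists_degree_bound
  set DJ := mweDiv vi J with hDJ
  -- the approximation divisor
  set D : Divisor K F := (c.toNat : ℤ) • Finsupp.single vi 1 - (E - DJ) with hD
  have hDdeg : c ≤ Divisor.degree D := by
    rw [hD, map_sub, map_sub, hEdeg, map_zsmul, Divisor.degree_single, h.deg_one vi]
    have h1 := rr_degree_nonneg DJ hJ.mweDiv_nonneg
    have h2 := Int.self_le_toNat c
    simp only [Nat.cast_one, mul_one, smul_eq_mul]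
    omega
  have hH1 := hc D hDdeg
  have hDv : ∀ v, v ≠ vi → D v = DJ v - E v := by
    intro v hv
    have : (Finsupp.single vi (1 : ℤ)) v = 0 := Finsupp.single_eq_of_ne hv
    simp only [hD, Finsupp.coe_sub, Finsupp.coe_smul, Pi.sub_apply, Pi.smul_apply, this,
      smul_zero]
    ring
  have hDJle : ∀ v, v ≠ vi → DJ v ≤ E v := by
    intro v hv
    rw [hJ.mweDiv_of_ne hv, hE v]
    exact hJ.mweOrd_le hv hf₀ hf₀0
  have hf₀val : ∀ v : Place K F, v.adicValuation f₀ = exp (-(E v)) := fun v => by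
    rw [v.adicValuation_eq_exp_neg_ord hf₀0, hE v]
  -- choose the local generators
  have hex : ∀ v : Place K F, ∃ g : F,
      v ≠ vi → (g ∈ J ∧ g ≠ 0 ∧ v.adicValuation g = exp (-(DJ v))) := by
    intro v
    by_cases hv : v = vi
    · exact ⟨0, fun h => absurd hv h⟩
    · obtain ⟨g, hg⟩ := hJ.exists_val_eq hv
      exact ⟨g, fun _ => hg⟩
  choose G hG using hex
  -- choose the approximations
  have hap : ∀ v : Place K F, ∃ a : F, v.adicValuation (a - f * (G v)⁻¹) ≤ exp (D v) ∧
      ∀ w : Place K F, w ≠ v → w.adicValuation a ≤ exp (D w) := by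
    intro v
    obtain ⟨a, ha1, ha2⟩ := h.strong_approx D hH1 {v} (fun _ => f * (G v)⁻¹)
    exact ⟨a, ha1 v (Finset.mem_singleton_self v), fun w hw => ha2 w (by simpa using hw)⟩
  choose a ha1 ha2 using hap
  set S : Finset (Place K F) := E.support.erase vi with hS
  have hSne : ∀ v ∈ S, v ≠ vi := fun v hv => Finset.ne_of_mem_erase hv
  -- the approximations are regular outside `vi`
  have hquot : ∀ v, v ≠ vi → v.adicValuation (f * (G v)⁻¹) ≤ 1 := by
    intro v hv
    obtain ⟨-, hg0, hgval⟩ := hG v hv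
    rw [map_mul, map_inv₀, hgval]
    have := hf v hv
    calc v.adicValuation f * (exp (-(DJ v)))⁻¹ ≤ exp (-(DJ v)) * (exp (-(DJ v)))⁻¹ :=
          mul_le_mul_left this _
      _ = 1 := mul_inv_cancel₀ exp_ne_zero
  have haholo : ∀ v, v ≠ vi → IsHolo vi (a v) := by
    intro v hv w hw
    by_cases hwv : w = v
    · subst hwv
      have e : a w = (a w - f * (G w)⁻¹) + f * (G w)⁻¹ := by ring
      rw [e]
      refine (Valuation.map_add _ _ _).trans (max_le ?_ (hquot w hw))
      refine (ha1 w).trans (mwe_exp_le_one ?_)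
      rw [hDv w hw]
      have := hDJle w hw
      omega
    · refine (ha2 v w hwv).trans (mwe_exp_le_one ?_)
      rw [hDv w hw]
      have := hDJle w hw
      omega
  have hterm_mem : ∀ v ∈ S, a v * G v ∈ J := fun v hv =>
    hJ.mul_mem _ _ (haholo v (hSne v hv)) (hG v (hSne v hv)).1
  -- bound of the terms at the other places
  have hterm : ∀ v ∈ S, ∀ w : Place K F, w ≠ vi → w ≠ v →
      w.adicValuation (a v * G v) ≤ exp (-(E w)) := by
    intro v hv w hw hwv
    rw [map_mul]
    refine mwe_mul_le_exp (ha2 v w hwv) (hJ.val_le (hG v (hSne v hv)).1 hw) ?_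
    rw [hDv w hw]
    ring
  have hsum_mem : (∑ v ∈ S, a v * G v) ∈ J := Submodule.sum_mem _ hterm_mem
  -- the remainder is divisible by `f₀`
  have hrem : ∀ w : Place K F, w ≠ vi →
      w.adicValuation (f - ∑ v ∈ S, a v * G v) ≤ exp (-(E w)) := by
    intro w hw
    by_cases hwS : w ∈ S
    · obtain ⟨-, hg0, hgval⟩ := hG w hw
      have e : f - ∑ v ∈ S, a v * G v =
          -(G w * (a w - f * (G w)⁻¹)) - ∑ v ∈ S.erase w, a v * G v := by
        rw [← Finset.add_sum_erase S _ hwS]
        field_simp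
        ring
      rw [e]
      refine (Valuation.map_sub _ _ _).trans (max_le ?_ ?_)
      · rw [Valuation.map_neg, map_mul]
        refine mwe_mul_le_exp hgval.le (ha1 w) ?_
        rw [hDv w hw]
        ring
      · refine Valuation.map_sum_le _ fun v hv => ?_
        exact hterm v (Finset.mem_of_mem_erase hv) w hw (Finset.ne_of_mem_erase hv).symm
    · have hEw : E w = 0 := by
        by_contra hne
        exact hwS (Finset.mem_erase.mpr ⟨hw, Finsupp.mem_support_iff.mpr hne⟩)
      have hDJw : DJ w = 0 := by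
        have h1 := hDJle w hw
        have h2 : (0 : Divisor K F) w ≤ DJ w := Finsupp.le_def.mp hJ.mweDiv_nonneg w
        simp only [Finsupp.coe_zero, Pi.zero_apply] at h2
        omega
      refine (Valuation.map_sub _ _ _).trans (max_le ?_ ?_)
      · have := hf w hw
        rwa [hDJw, ← hEw] at this
      · refine Valuation.map_sum_le _ fun v hv => ?_
        exact hterm v hv w hw (fun hcon => hwS (hcon ▸ hv))
  have hremholo : IsHolo vi ((f - ∑ v ∈ S, a v * G v) * f₀⁻¹) := by
    intro w hw
    rw [map_mul, map_inv₀, hf₀val w]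
    calc w.adicValuation (f - ∑ v ∈ S, a v * G v) * (exp (-(E w)))⁻¹
        ≤ exp (-(E w)) * (exp (-(E w)))⁻¹ := mul_le_mul_left (hrem w hw) _
      _ = 1 := mul_inv_cancel₀ exp_ne_zero
  have hrem_mem : f - ∑ v ∈ S, a v * G v ∈ J := by
    have := hJ.mul_mem _ _ hremholo hf₀
    rwa [inv_mul_cancel_right₀ hf₀0] at this
  have := J.add_mem hrem_mem hsum_mem
  rwa [sub_add_cancel] at this

/-- **The ideal-divisor dictionary.** -/
theorem IsHoloIdeal.mem_iff (h : RRHyp K F) {vi : Place K F} {J : Submodule K F}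
    (hJ : IsHoloIdeal vi J) (f : F) :
    f ∈ J ↔ ∀ v : Place K F, v ≠ vi → v.adicValuation f ≤ exp (-(mweDiv vi J v)) := by
  haveI := h.principal
  exact ⟨fun hf v hv => hJ.val_le hf hv, hJ.mem_of_val_le h⟩

end Fermat.Agent.H58

end
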