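/-
P-MW / block E2 (helper58): Riemann-Roch for the ideals of the holomorphy ring outside one place
(the abstract core of `MWDatum.bar_rr`).

Setting: `h : RRHyp K F`, a place `vi`, a `K`-algebra `A` with an injective `K`-algebra map
`φ : A →ₐ[K] F` whose range is the holomorphy ring outside `vi`, and the pole-order filtration
`W m = φ⁻¹ L(m vi)`.  Then for every nonzero ideal `I` of `A`: `A ⧸ I` is finite-dimensional and
`dim (W m ∩ I) + dim (A ⧸ I) + g = m + 1` for `m ≥ dim (A ⧸ I) + c`, where `c` is any bound with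
`H¹(D) = 0` for `deg D ≥ c`.
-/
import Fermat.Agent.H58.MWE.IdealMem

set_option autoImplicit false
set_option linter.style.haveILetI false

noncomputable section

open AlgebraicCurve WithZero Module

namespace Fermat.Agent.H58

variable {K F : Type*} [Field K] [Field F] [Algebra K F]

/-- `L(m vi) ∩ J = L(m vi - D_J)`. -/
theorem IsHoloIdeal.inf_eq (h : RRHyp K F) {vi : Place K F} {J : Submodule K F}
    (hJ : IsHoloIdeal vi J) (m : ℤ) :
    riemannRochSpace (Finsupp.single vi m) ⊓ J =
      riemannRochSpace (Finsupp.single vi m - mweDiv vi J) := by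
  haveI := h.principal
  ext f
  rw [Submodule.mem_inf]
  constructor
  · rintro ⟨hf1, hf2⟩ v
    by_cases hv : v = vi
    · subst hv
      have := hf1 v
      simpa [hJ.mweDiv_self] using this
    · have := hJ.val_le hf2 hv
      simpa [Finsupp.single_eq_of_ne hv] using this
  · intro hf
    refine ⟨?_, ?_⟩
    · have hle : Finsupp.single vi m - mweDiv vi J ≤ Finsupp.single vi m := by
        have := hJ.mweDiv_nonneg
        exact sub_le_self _ this
      exact rr_space_mono hle hf
    · refine hJ.mem_of_val_le h fun v hv => ?_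
      have := hf v
      simpa [Finsupp.single_eq_of_ne hv] using this

/-- Riemann-Roch in large degree. -/
theorem RRHyp.finrank_of_H1 (h : RRHyp K F) {D : Divisor K F}
    (hD : finrank K (H1 D) = 0) :
    (finrank K (riemannRochSpace D) : ℤ) = Divisor.degree D + 1 - (genusFF K F : ℤ) := by
  have := (h.riemann D).2
  rw [hD] at this
  simpa using this

/-- A natural number bound for the vanishing of `H¹`. -/
theorem RRHyp.exists_nat_degree_bound (h : RRHyp K F) :
    ∃ c : ℕ, ∀ D : Divisor K F, (c : ℤ) ≤ Divisor.degree D → finrank K (H1 D) = 0 := by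
  obtain ⟨c, hc⟩ := h.exists_degree_bound
  refine ⟨c.toNat, fun D hD => hc D ?_⟩
  have := Int.self_le_toNat c
  omega

/-! ### The algebra side -/

section Main

variable {A : Type*} [CommRing A] [Algebra K A]

/-- The image in `F` of an ideal of `A`. -/
def mweImage (φ : A →ₐ[K] F) (I : Ideal A) : Submodule K F :=
  Submodule.map φ.toLinearMap (I.restrictScalars K)

theorem mem_mweImage {φ : A →ₐ[K] F} {I : Ideal A} {f : F} :
    f ∈ mweImage φ I ↔ ∃ x ∈ I, φ x = f := by
  unfold mweImage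
  rw [Submodule.mem_map]
  rfl

theorem mweImage_isHoloIdeal {vi : Place K F} {φ : A →ₐ[K] F} (hφ : Function.Injective φ)
    (hrange : ∀ f : F, f ∈ φ.range ↔ ∀ v : Place K F, v ≠ vi → v.adicValuation f ≤ 1)
    {I : Ideal A} (hI : I ≠ ⊥) : IsHoloIdeal vi (mweImage φ I) := by
  refine ⟨?_, ?_, ?_⟩
  · intro f hf
    obtain ⟨x, -, rfl⟩ := mem_mweImage.mp hf
    exact (hrange _).mp ⟨x, rfl⟩
  · intro a f ha hf
    obtain ⟨x, hx, rfl⟩ := mem_mweImage.mp hf
    obtain ⟨b, rfl⟩ := (hrange a).mpr ha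
    exact mem_mweImage.mpr ⟨b * x, I.mul_mem_left b hx, map_mul φ b x⟩
  · obtain ⟨x, hx, hx0⟩ := (Submodule.ne_bot_iff I).mp hI
    rw [Submodule.ne_bot_iff]
    refine ⟨φ x, mem_mweImage.mpr ⟨x, hx, rfl⟩, ?_⟩
    rw [Ne, ← map_zero φ]
    exact fun hcon => hx0 (hφ hcon)

variable (h : RRHyp K F) (vi : Place K F) (c : ℕ)
  (hc : ∀ D : Divisor K F, (c : ℤ) ≤ Divisor.degree D → finrank K (H1 D) = 0)
  (φ : A →ₐ[K] F) (hφ : Function.Injective φ)
  (hrange : ∀ f : F, f ∈ φ.range ↔ ∀ v : Place K F, v ≠ vi → v.adicValuation f ≤ 1)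
  (W : ℕ → Submodule K A)
  (hW : ∀ (m : ℕ) (a : A), a ∈ W m ↔ φ a ∈ riemannRochSpace (Finsupp.single vi (m : ℤ)))

include hrange in
theorem mwe_mem_range_of_mem_L {m : ℤ} {f : F}
    (hf : f ∈ riemannRochSpace (Finsupp.single vi m)) : f ∈ φ.range := by
  rw [hrange]
  intro v hv
  have := hf v
  simpa [Finsupp.single_eq_of_ne hv] using this

include hrange hW in
theorem mwe_map_W (m : ℕ) :
    Submodule.map φ.toLinearMap (W m) = riemannRochSpace (Finsupp.single vi (m : ℤ)) := by
  ext f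
  rw [Submodule.mem_map]
  constructor
  · rintro ⟨x, hx, rfl⟩
    exact (hW m x).mp hx
  · intro hf
    obtain ⟨x, rfl⟩ := mwe_mem_range_of_mem_L vi φ hrange hf
    exact ⟨x, (hW m x).mpr hf, rfl⟩

include hW in
theorem mwe_map_W_inf (m : ℕ) (I : Ideal A) :
    Submodule.map φ.toLinearMap (W m ⊓ I.restrictScalars K) =
      riemannRochSpace (Finsupp.single vi (m : ℤ)) ⊓ mweImage φ I := by
  ext f
  rw [Submodule.mem_map, Submodule.mem_inf]
  constructor
  · rintro ⟨x, hx, rfl⟩
    rw [Submodule.mem_inf] at hx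
    exact ⟨(hW m x).mp hx.1, mem_mweImage.mpr ⟨x, hx.2, rfl⟩⟩
  · rintro ⟨hf1, hf2⟩
    obtain ⟨x, hx, rfl⟩ := mem_mweImage.mp hf2
    exact ⟨x, Submodule.mem_inf.mpr ⟨(hW m x).mpr hf1, hx⟩, rfl⟩

include h hφ hrange hW in
theorem mwe_finite_W (m : ℕ) : Module.Finite K (W m) := by
  have e := Submodule.equivMapOfInjective φ.toLinearMap hφ (W m)
  rw [mwe_map_W vi φ hrange W hW m] at e
  haveI := h.finite_space (Finsupp.single vi (m : ℤ))
  exact Module.Finite.equiv e.symm

include h hc hφ hrange hW in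
/-- `dim W m + g = m + 1` for `m ≥ c`. -/
theorem mwe_finrank_W (m : ℕ) (hm : c ≤ m) : finrank K (W m) + genusFF K F = m + 1 := by
  have e := Submodule.equivMapOfInjective φ.toLinearMap hφ (W m)
  rw [mwe_map_W vi φ hrange W hW m] at e
  have hdeg : Divisor.degree (Finsupp.single vi (m : ℤ)) = m := by
    rw [Divisor.degree_single, h.deg_one vi]; simp
  have hH1 := hc (Finsupp.single vi (m : ℤ)) (by rw [hdeg]; exact_mod_cast hm)
  have h1 := h.finrank_of_H1 hH1
  rw [hdeg, ← e.finrank_eq] at h1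
  omega

include h hc hφ hrange hW in
/-- `dim (W m ∩ I) = m - deg D_I + 1 - g` for `m ≥ c + deg D_I`. -/
theorem mwe_finrank_W_inf (I : Ideal A) (hI : I ≠ ⊥) (m : ℕ)
    (hm : (c : ℤ) + Divisor.degree (mweDiv vi (mweImage φ I)) ≤ m) :
    (finrank K ↥(W m ⊓ I.restrictScalars K) : ℤ) =
      m - Divisor.degree (mweDiv vi (mweImage φ I)) + 1 - (genusFF K F : ℤ) := by
  have hJ := mweImage_isHoloIdeal hφ hrange hI
  have e := Submodule.equivMapOfInjective φ.toLinearMap hφ (W m ⊓ I.restrictScalars K)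
  rw [mwe_map_W_inf vi φ W hW m I, hJ.inf_eq h] at e
  have hdeg : Divisor.degree (Finsupp.single vi (m : ℤ) - mweDiv vi (mweImage φ I)) =
      m - Divisor.degree (mweDiv vi (mweImage φ I)) := by
    rw [map_sub, Divisor.degree_single, h.deg_one vi]; simp
  have hH1 := hc _ (by rw [hdeg]; omega)
  have h1 := h.finrank_of_H1 hH1
  rw [hdeg, ← e.finrank_eq] at h1
  exact h1

include h hc hφ hrange hW in
/-- Every class modulo `I` has a representative in `W m` for `m ≥ c + deg D_I`. -/
theorem mwe_exists_rep (I : Ideal A) (hI : I ≠ ⊥) (m : ℕ)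
    (hm : (c : ℤ) + Divisor.degree (mweDiv vi (mweImage φ I)) ≤ m) (x : A) :
    ∃ y ∈ W m, y - x ∈ I := by
  classical
  haveI := h.principal
  have hJ := mweImage_isHoloIdeal hφ hrange hI
  set DJ := mweDiv vi (mweImage φ I) with hDJ
  have hdeg : Divisor.degree (Finsupp.single vi (m : ℤ) - DJ) = m - Divisor.degree DJ := by
    rw [map_sub, Divisor.degree_single, h.deg_one vi]; simp
  have hH1 := hc _ (by rw [hdeg]; omega)
  obtain ⟨b, hb1, hb2⟩ := h.strong_approx _ hH1 DJ.support (fun _ => φ x)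
  have hxholo : ∀ v : Place K F, v ≠ vi → v.adicValuation (φ x) ≤ 1 :=
    (hrange (φ x)).mp ⟨x, rfl⟩
  have hDJnn : ∀ v, 0 ≤ DJ v := fun v => by
    have := Finsupp.le_def.mp hJ.mweDiv_nonneg v
    simpa using this
  -- `b - φ x ∈ J`
  have hbx : b - φ x ∈ mweImage φ I := by
    refine hJ.mem_of_val_le h fun v hv => ?_
    by_cases hvS : v ∈ DJ.support
    · have := hb1 v hvS
      simpa [Finsupp.single_eq_of_ne hv] using this
    · have h0 : DJ v = 0 := by simpa using hvS
      have := hb2 v hvS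
      rw [Finsupp.sub_apply, Finsupp.single_eq_of_ne hv, h0] at this
      rw [← hDJ, h0]
      simp only [sub_zero, neg_zero, exp_zero] at this ⊢
      exact (Valuation.map_sub _ _ _).trans (max_le this (hxholo v hv))
  -- `b ∈ L(m vi)`
  have hbL : b ∈ riemannRochSpace (Finsupp.single vi (m : ℤ)) := by
    intro v
    by_cases hv : v = vi
    · subst hv
      have hvS : v ∉ DJ.support := by
        rw [Finsupp.mem_support_iff, not_not]
        exact hJ.mweDiv_self
      have := hb2 v hvS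
      rw [Finsupp.sub_apply, hJ.mweDiv_self, sub_zero] at this
      exact this
    · rw [Finsupp.single_eq_of_ne hv, exp_zero]
      have e : b = (b - φ x) + φ x := by ring
      rw [e]
      refine (Valuation.map_add _ _ _).trans (max_le ?_ (hxholo v hv))
      exact hJ.holo _ hbx v hv
  obtain ⟨y, hy⟩ := mwe_mem_range_of_mem_L vi φ hrange hbL
  have hy' : φ y = b := hy
  refine ⟨y, (hW m y).mpr (by rw [hy']; exact hbL), ?_⟩
  obtain ⟨z, hz, hzeq⟩ := mem_mweImage.mp hbx
  have : z = y - x := hφ (by rw [hzeq, map_sub, hy'])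
  rwa [this] at hz

include h hc hφ hrange hW in
/-- `A ⧸ I` is finite-dimensional of dimension `deg D_I`. -/
theorem mwe_quot (I : Ideal A) (hI : I ≠ ⊥) :
    Module.Finite K (A ⧸ I) ∧
      (finrank K (A ⧸ I) : ℤ) = Divisor.degree (mweDiv vi (mweImage φ I)) := by
  have hJ := mweImage_isHoloIdeal hφ hrange hI
  haveI := h.principal
  set d := Divisor.degree (mweDiv vi (mweImage φ I)) with hd
  have hd0 : 0 ≤ d := rr_degree_nonneg _ hJ.mweDiv_nonneg
  set m : ℕ := c + d.toNat with hm
  have hmd : (c : ℤ) + d ≤ m := by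
    rw [hm]; push_cast; rw [Int.toNat_of_nonneg hd0]
  haveI := mwe_finite_W h vi φ hφ hrange W hW m
  let g : ↥(W m) →ₗ[K] A ⧸ I := (Ideal.Quotient.mkₐ K I).toLinearMap.comp (W m).subtype
  have hsurj : Function.Surjective g := by
    intro q
    obtain ⟨x, rfl⟩ := Ideal.Quotient.mk_surjective q
    obtain ⟨y, hy, hyx⟩ := mwe_exists_rep h vi c hc φ hφ hrange W hW I hI m hmd x
    refine ⟨⟨y, hy⟩, ?_⟩
    show Ideal.Quotient.mk I y = Ideal.Quotient.mk I x
    exact Ideal.Quotient.eq.mpr hyx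
  have hfin : Module.Finite K (A ⧸ I) := Module.Finite.of_surjective g hsurj
  refine ⟨hfin, ?_⟩
  have hrn := g.finrank_range_add_finrank_ker
  have hrange' : finrank K (LinearMap.range g) = finrank K (A ⧸ I) := by
    rw [LinearMap.range_eq_top.mpr hsurj, finrank_top]
  have hker : finrank K (LinearMap.ker g) = finrank K ↥(W m ⊓ I.restrictScalars K) := by
    have e := Submodule.equivMapOfInjective (W m).subtype (W m).injective_subtype
      (LinearMap.ker g)
    have hmap : Submodule.map (W m).subtype (LinearMap.ker g) =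
        W m ⊓ I.restrictScalars K := by
      ext a
      rw [Submodule.mem_map, Submodule.mem_inf]
      constructor
      · rintro ⟨⟨y, hy⟩, hyk, rfl⟩
        refine ⟨hy, ?_⟩
        have : Ideal.Quotient.mk I y = 0 := LinearMap.mem_ker.mp hyk
        exact Ideal.Quotient.eq_zero_iff_mem.mp this
      · rintro ⟨ha1, ha2⟩
        exact ⟨⟨a, ha1⟩, LinearMap.mem_ker.mpr (Ideal.Quotient.eq_zero_iff_mem.mpr ha2), rfl⟩
    rw [hmap] at e
    exact e.finrank_eq
  have h1 := mwe_finrank_W h vi c hc φ hφ hrange W hW m (by omega)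
  have h2 := mwe_finrank_W_inf h vi c hc φ hφ hrange W hW I hI m hmd
  omega

include h hc hφ hrange hW in
/-- **Riemann-Roch for ideals of the holomorphy ring** (abstract form of `MWDatum.bar_rr`). -/
theorem mwe_bar_rr (I : Ideal A) (hI : I ≠ ⊥) :
    Module.Finite K (A ⧸ I) ∧ ∀ m : ℕ, finrank K (A ⧸ I) + c ≤ m →
      finrank K ↥(W m ⊓ I.restrictScalars K) + finrank K (A ⧸ I) + genusFF K F = m + 1 := by
  obtain ⟨hfin, hquot⟩ := mwe_quot h vi c hc φ hφ hrange W hW I hI
  refine ⟨hfin, fun m hm => ?_⟩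
  have h2 := mwe_finrank_W_inf h vi c hc φ hφ hrange W hW I hI m (by omega)
  omega

/-- The pole order at `vi` is a valuation (abstract form of `MWDatum.bar_val`). -/
theorem mwe_bar_val (vi : Place K F) (φ : A →ₐ[K] F)
    (hrange : ∀ f : F, f ∈ φ.range ↔ ∀ v : Place K F, v ≠ vi → v.adicValuation f ≤ 1)
    (W : ℕ → Submodule K A)
    (hW : ∀ (m : ℕ) (a : A), a ∈ W m ↔ φ a ∈ riemannRochSpace (Finsupp.single vi (m : ℤ)))
    (a b : A) (m m' : ℕ) (ha : a ∉ W m) (hb : b ∉ W m') : a * b ∉ W (m + m' + 1) := by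
  have key : ∀ (x : A) (n : ℕ), x ∈ W n ↔ vi.adicValuation (φ x) ≤ exp (n : ℤ) := by
    intro x n
    rw [hW n x]
    constructor
    · intro hx
      have := hx vi
      simpa using this
    · intro hx v
      by_cases hv : v = vi
      · subst hv; simpa using hx
      · rw [Finsupp.single_eq_of_ne hv, exp_zero]
        exact (hrange (φ x)).mp ⟨x, rfl⟩ v hv
  rw [key] at ha hb ⊢
  rw [not_le] at ha hb ⊢
  rw [map_mul, map_mul]
  have h1 : exp ((m : ℤ) + 1) ≤ vi.adicValuation (φ a) := by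
    have hne : vi.adicValuation (φ a) ≠ 0 := fun h0 => by rw [h0] at ha; simp at ha
    rw [← exp_log hne] at ha ⊢
    rw [exp_lt_exp] at ha
    rw [exp_le_exp]
    omega
  have h2 : exp ((m' : ℤ) + 1) ≤ vi.adicValuation (φ b) := by
    have hne : vi.adicValuation (φ b) ≠ 0 := fun h0 => by rw [h0] at hb; simp at hb
    rw [← exp_log hne] at hb ⊢
    rw [exp_lt_exp] at hb
    rw [exp_le_exp]
    omega
  calc exp (((m + m' + 1 : ℕ) : ℤ)) < exp (((m : ℤ) + 1) + ((m' : ℤ) + 1)) := by
        rw [exp_lt_exp]; push_cast; omega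
    _ = exp ((m : ℤ) + 1) * exp ((m' : ℤ) + 1) := exp_add _ _
    _ ≤ _ := mul_le_mul' h1 h2

end Main

end Fermat.Agent.H58

end
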