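/-
P-MW / block E, row 878 MW-E-RR (helper58): `HoloRRStatement` (Riemann-Roch for the ideals of the
holomorphy ring `holo P₀`), from the abstract core `mwe_bar_rr`.
-/
import Fermat.Agent.H58.MWE.BarRR
import Fermat.Agent.H39.MW.ModStatements

set_option autoImplicit false

noncomputable section

open AlgebraicCurve WithZero Module

namespace Fermat.Agent.H58

open Fermat.Agent.H39.MW

section

variable {K F : Type} [Field K] [Field F] [Algebra K F]

theorem mwe_holo_range (P₀ : Place K F) (f : F) :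
    f ∈ (holo P₀).val.range ↔ ∀ v : Place K F, v ≠ P₀ → v.adicValuation f ≤ 1 := by
  constructor
  · rintro ⟨a, rfl⟩ v hv
    exact (Fermat.Agent.H23.mem_iff_adicValuation_le_one v).mp (a.2 v hv)
  · intro hf
    exact ⟨⟨f, fun v hv => (Fermat.Agent.H23.mem_iff_adicValuation_le_one v).mpr (hf v hv)⟩, rfl⟩

theorem mwe_mem_poleSpace_iff (P₀ : Place K F) (m : ℕ) (a : ↥(holo P₀)) :
    a ∈ poleSpace P₀ m ↔
      (holo P₀).val a ∈ riemannRochSpace (Finsupp.single P₀ (m : ℤ)) := by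
  rw [mem_poleSpace]
  constructor
  · intro ha v
    by_cases hv : v = P₀
    · subst hv
      rw [Finsupp.single_eq_same, v.adicValuation_le_exp_iff]
      exact ha
    · rw [Finsupp.single_eq_of_ne hv, exp_zero]
      exact (Fermat.Agent.H23.mem_iff_adicValuation_le_one v).mp (a.2 v hv)
  · intro ha
    have := ha P₀
    rw [Finsupp.single_eq_same, P₀.adicValuation_le_exp_iff] at this
    exact this

/-- Riemann-Roch for the ideals of `holo P₀`, with an explicit bound. -/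
theorem mwe_holo_rr (h : RRHyp K F) (P₀ : Place K F) (c : ℕ)
    (hc : ∀ D : Divisor K F, (c : ℤ) ≤ Divisor.degree D → finrank K (H1 D) = 0)
    (I : Ideal ↥(holo P₀)) (hI : I ≠ ⊥) :
    Module.Finite K (↥(holo P₀) ⧸ I) ∧
      ∀ m : ℕ, finrank K (↥(holo P₀) ⧸ I) + c ≤ m →
        finrank K ↥(poleSpace P₀ m ⊓ I.restrictScalars K) + finrank K (↥(holo P₀) ⧸ I)
          + genusFF K F = m + 1 :=
  mwe_bar_rr h P₀ c hc (holo P₀).val Subtype.val_injective (mwe_holo_range P₀)
    (poleSpace P₀) (mwe_mem_poleSpace_iff P₀) I hI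

/-- `dim L(m P₀) + g = m + 1` for `m ≥ c`. -/
theorem mwe_holo_finrank_poleSpace (h : RRHyp K F) (P₀ : Place K F) (c : ℕ)
    (hc : ∀ D : Divisor K F, (c : ℤ) ≤ Divisor.degree D → finrank K (H1 D) = 0)
    (m : ℕ) (hm : c ≤ m) : finrank K ↥(poleSpace P₀ m) + genusFF K F = m + 1 :=
  mwe_finrank_W h P₀ c hc (holo P₀).val Subtype.val_injective (mwe_holo_range P₀)
    (poleSpace P₀) (mwe_mem_poleSpace_iff P₀) m hm

theorem mwe_holo_finite_poleSpace (h : RRHyp K F) (P₀ : Place K F) (m : ℕ) :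
    Module.Finite K ↥(poleSpace P₀ m) :=
  mwe_finite_W h P₀ (holo P₀).val Subtype.val_injective (mwe_holo_range P₀)
    (poleSpace P₀) (mwe_mem_poleSpace_iff P₀) m

theorem mwe_holo_val (P₀ : Place K F) (a b : ↥(holo P₀)) (m m' : ℕ)
    (ha : a ∉ poleSpace P₀ m) (hb : b ∉ poleSpace P₀ m') :
    a * b ∉ poleSpace P₀ (m + m' + 1) :=
  mwe_bar_val P₀ (holo P₀).val (mwe_holo_range P₀) (poleSpace P₀) (mwe_mem_poleSpace_iff P₀)
    a b m m' ha hb

end

/-- **MW-E-RR** (row 878). -/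
theorem holoRRStatement : HoloRRStatement := by
  intro K F _ _ _ _ _ h x _ _ P₀
  obtain ⟨c, hc⟩ := h.exists_nat_degree_bound
  exact ⟨c, fun I hI => mwe_holo_rr h P₀ c hc I hI⟩

end Fermat.Agent.H58

end
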